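/-
S29 / S42, Program A, leaf A1 (helper24): weighted ("twisted") Eisenstein series.

For a weight `w : (Fin 2 → ℤ) → ℂ` bounded by `1` and `k ≥ 3`,
  `wEis k w z = ∑' v, w v * (v 0 * z + v 1) ^ (-k)`
is holomorphic on the upper half plane (`mdiff_wEis`), its slash translates are again weighted
Eisenstein series (`wEis_slash`), it is bounded at `i∞` (`isBoundedAtImInfty_wEis`), and for
`k ≥ 4` it tends to `wEisConst k w = ∑' v, if v 0 = 0 then w v * (v 1) ^ (-k) else 0` at `i∞`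
(`tendsto_wEis_atImInfty`).

Consequently, if `w (v ᵥ* γ⁻¹) = c * w v` for all `v`, then `wEis k w ∣[k] γ = c • wEis k w`
(`wEis_slash_of_equivariant`): multiplier systems.
-/
import Mathlib

set_option autoImplicit false

open UpperHalfPlane EisensteinSeries ModularForm Matrix Filter Topology
open scoped MatrixGroups UpperHalfPlane Manifold

noncomputable section

namespace Fermat.Agent.S29.H24

/-- The weighted Eisenstein series. -/
def wEis (k : ℤ) (w : (Fin 2 → ℤ) → ℂ) (z : ℍ) : ℂ :=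
  ∑' v : Fin 2 → ℤ, w v * eisSummand k v z

/-- Right translation of a weight by (the inverse of) an element of `SL(2, ℤ)`. -/
def wTransl (w : (Fin 2 → ℤ) → ℂ) (γ : SL(2, ℤ)) (v : Fin 2 → ℤ) : ℂ :=
  w (v ᵥ* ((γ⁻¹ : SL(2, ℤ)) : Matrix (Fin 2) (Fin 2) ℤ))

variable {k : ℤ} {w : (Fin 2 → ℤ) → ℂ}

theorem norm_wTransl_le (hw : ∀ v, ‖w v‖ ≤ 1) (γ : SL(2, ℤ)) (v : Fin 2 → ℤ) :
    ‖wTransl w γ v‖ ≤ 1 := hw _

theorem norm_wEis_summand_le (hw : ∀ v, ‖w v‖ ≤ 1) (v : Fin 2 → ℤ) (z : ℍ) :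
    ‖w v * eisSummand k v z‖ ≤ ‖eisSummand k v z‖ := by
  rw [norm_mul]
  exact mul_le_of_le_one_left (norm_nonneg _) (hw v)

theorem summable_norm_wEis (hk : 3 ≤ k) (hw : ∀ v, ‖w v‖ ≤ 1) (z : ℍ) :
    Summable fun v : Fin 2 → ℤ => ‖w v * eisSummand k v z‖ :=
  (summable_norm_eisSummand hk z).of_nonneg_of_le (fun _ => norm_nonneg _)
    (fun v => norm_wEis_summand_le hw v z)

theorem summable_wEis (hk : 3 ≤ k) (hw : ∀ v, ‖w v‖ ≤ 1) (z : ℍ) :
    Summable fun v : Fin 2 → ℤ => w v * eisSummand k v z :=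
  (summable_norm_wEis hk hw z).of_norm

/-- The permutation `v ↦ v ᵥ* γ` of `Fin 2 → ℤ`. -/
def vecMulEquiv (γ : SL(2, ℤ)) : (Fin 2 → ℤ) ≃ (Fin 2 → ℤ) where
  toFun := fun v => v ᵥ* (γ : Matrix (Fin 2) (Fin 2) ℤ)
  invFun := fun v => v ᵥ* ((γ⁻¹ : SL(2, ℤ)) : Matrix (Fin 2) (Fin 2) ℤ)
  left_inv := fun v => by
    simp_rw [vecMul_vecMul, ← Matrix.SpecialLinearGroup.coe_mul, mul_inv_cancel,
      Matrix.SpecialLinearGroup.coe_one, vecMul_one]
  right_inv := fun v => by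
    simp_rw [vecMul_vecMul, ← Matrix.SpecialLinearGroup.coe_mul, inv_mul_cancel,
      Matrix.SpecialLinearGroup.coe_one, vecMul_one]

theorem vecMulEquiv_apply (γ : SL(2, ℤ)) (v : Fin 2 → ℤ) :
    vecMulEquiv γ v = v ᵥ* (γ : Matrix (Fin 2) (Fin 2) ℤ) := rfl

theorem wTransl_vecMul (w : (Fin 2 → ℤ) → ℂ) (γ : SL(2, ℤ)) (v : Fin 2 → ℤ) :
    wTransl w γ (v ᵥ* (γ : Matrix (Fin 2) (Fin 2) ℤ)) = w v := by
  simp_rw [wTransl, vecMul_vecMul, ← Matrix.SpecialLinearGroup.coe_mul, mul_inv_cancel,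
    Matrix.SpecialLinearGroup.coe_one, vecMul_one]

/-- Slash translates of weighted Eisenstein series. -/
theorem wEis_slash (γ : SL(2, ℤ)) :
    wEis k w ∣[k] γ = wEis k (wTransl w γ) := by
  ext1 z
  simp_rw [SL_slash_apply, _root_.zpow_neg,
    mul_inv_eq_iff_eq_mul₀ (zpow_ne_zero _ <| denom_ne_zero _ z), wEis, eisSummand_SL2_apply]
  rw [← tsum_mul_right]
  refine Eq.trans ?_ ((vecMulEquiv γ).tsum_eq _)
  refine tsum_congr fun v => ?_
  rw [vecMulEquiv_apply, wTransl_vecMul]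
  ring

/-- The multiplier system of a weighted Eisenstein series with an equivariant weight. -/
theorem wEis_slash_of_equivariant (γ : SL(2, ℤ)) (c : ℂ)
    (h : ∀ v, wTransl w γ v = c * w v) :
    wEis k w ∣[k] γ = c • wEis k w := by
  rw [wEis_slash]
  ext1 z
  simp only [wEis, Pi.smul_apply, smul_eq_mul, h, mul_assoc]
  rw [tsum_mul_left]

/-- Locally uniform convergence. -/
theorem wEis_tendstoLocallyUniformly (hk : 3 ≤ k) (hw : ∀ v, ‖w v‖ ≤ 1) :
    TendstoLocallyUniformly (fun (s : Finset (Fin 2 → ℤ)) ↦ (∑ x ∈ s, w x * eisSummand k x ·))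
      (wEis k w ·) Filter.atTop := by
  have hk' : (2 : ℝ) < k := by norm_cast
  have p_sum : Summable fun x : Fin 2 → ℤ ↦ ‖x‖ ^ (-k) :=
    mod_cast (summable_one_div_norm_rpow hk')
  simp only [tendstoLocallyUniformly_iff_forall_isCompact, wEis]
  intro K hK
  obtain ⟨A, B, hB, HABK⟩ := subset_verticalStrip_of_isCompact hK
  refine (tendstoUniformlyOn_tsum (hu := p_sum.mul_left <| r ⟨⟨A, B⟩, hB⟩ ^ (-k : ℝ))
    (fun p z hz ↦ ?_)).mono HABK
  refine (norm_wEis_summand_le hw p z).trans ?_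
  simpa only [eisSummand, one_div, ← _root_.zpow_neg, norm_zpow, ← Real.rpow_intCast,
    Int.cast_neg] using summand_bound_of_mem_verticalStrip (by positivity) p hB hz

theorem wEis_tendstoLocallyUniformlyOn (hk : 3 ≤ k) (hw : ∀ v, ‖w v‖ ≤ 1) :
    TendstoLocallyUniformlyOn (fun (s : Finset (Fin 2 → ℤ)) ↦
      ↑ₕ(fun (z : ℍ) ↦ ∑ x ∈ s, w x * eisSummand k x z)) (↑ₕ(wEis k w))
          Filter.atTop {z : ℂ | 0 < z.im} := by
  rw [← upperHalfPlaneSet, ← range_coe, ← Set.image_univ]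
  apply TendstoLocallyUniformlyOn.comp (s := ⊤) _ _ _ (OpenPartialHomeomorph.continuousOn_symm _)
  · simp only [Set.top_eq_univ, tendstoLocallyUniformlyOn_univ]
    exact wEis_tendstoLocallyUniformly hk hw
  · simp only [IsOpenEmbedding.toOpenPartialHomeomorph_target, Set.top_eq_univ,
      Set.mapsTo_range_iff, Set.mem_univ, forall_const]

theorem wEis_summand_extension_differentiableOn (k : ℤ) (w : (Fin 2 → ℤ) → ℂ) (a : Fin 2 → ℤ) :
    DifferentiableOn ℂ (↑ₕ(fun z : ℍ => w a * eisSummand k a z)) {z : ℂ | 0 < z.im} := by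
  have h := (eisSummand_extension_differentiableOn k a).const_mul (w a)
  exact h

/-- Weighted Eisenstein series are holomorphic. -/
theorem mdiff_wEis (hk : 3 ≤ k) (hw : ∀ v, ‖w v‖ ≤ 1) : MDiff (wEis k w) := by
  intro τ
  suffices DifferentiableAt ℂ (↑ₕ(wEis k w)) τ.1 by
    convert!
      MDifferentiableAt.comp τ (DifferentiableAt.mdifferentiableAt this) τ.mdifferentiable_coe
    exact funext fun z ↦ (comp_ofComplex (wEis k w) z).symm
  refine DifferentiableOn.differentiableAt ?_ (isOpen_upperHalfPlaneSet.mem_nhds τ.2)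
  refine (wEis_tendstoLocallyUniformlyOn hk hw).differentiableOn
    (Eventually.of_forall fun s ↦ ?_) isOpen_upperHalfPlaneSet
  have h : DifferentiableOn ℂ (fun z : ℂ => ∑ x ∈ s, (↑ₕ(fun z : ℍ => w x * eisSummand k x z)) z)
      {z : ℂ | 0 < z.im} :=
    DifferentiableOn.fun_sum fun x _ ↦ wEis_summand_extension_differentiableOn k w x
  refine h.congr fun z _ => ?_
  simp [Function.comp]

/-! ### Translation by powers of `T` -/

theorem denom_T_zpow (n : ℤ) (z : ℍ) : denom (ModularGroup.T ^ n : SL(2, ℤ)) z = 1 := by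
  rw [ModularGroup.denom_apply, ModularGroup.coe_T_zpow]
  simp

theorem wEis_T_zpow_smul (n : ℤ) (z : ℍ) :
    wEis k w (ModularGroup.T ^ n • z) = wEis k (wTransl w (ModularGroup.T ^ n)) z := by
  have h := congrFun (wEis_slash (k := k) (w := w) (ModularGroup.T ^ n)) z
  rw [SL_slash_apply, denom_T_zpow, _root_.one_zpow, mul_one] at h
  exact h

theorem vecMul_T_zpow_inv (n : ℤ) {v : Fin 2 → ℤ} (hv : v 0 = 0) :
    v ᵥ* (((ModularGroup.T ^ n)⁻¹ : SL(2, ℤ)) : Matrix (Fin 2) (Fin 2) ℤ) = v := by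
  rw [← _root_.zpow_neg, ModularGroup.coe_T_zpow]
  ext i
  fin_cases i <;> simp [vecMul, dotProduct, Fin.sum_univ_two, hv]

theorem wTransl_T_zpow_of_zero (w : (Fin 2 → ℤ) → ℂ) (n : ℤ) {v : Fin 2 → ℤ} (hv : v 0 = 0) :
    wTransl w (ModularGroup.T ^ n) v = w v := by
  rw [wTransl, vecMul_T_zpow_inv n hv]

/-! ### Boundedness at `i∞` -/

/-- The comparison constant on the standard strip. -/
def rStrip : ℝ := r ⟨⟨1, 1⟩, one_pos⟩

theorem rStrip_pos : 0 < rStrip := r_pos _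

theorem norm_wEis_le_of_mem_verticalStrip (hk : 3 ≤ k) (hw : ∀ v, ‖w v‖ ≤ 1) {z : ℍ}
    (hz : z ∈ verticalStrip 1 1) :
    ‖wEis k w z‖ ≤ ∑' v : Fin 2 → ℤ, rStrip ^ (-k) * ‖v‖ ^ (-k) := by
  have hk' : (2 : ℝ) < k := by norm_cast
  have p_sum : Summable fun x : Fin 2 → ℤ ↦ rStrip ^ (-k) * ‖x‖ ^ (-k) :=
    mod_cast (summable_one_div_norm_rpow hk').mul_left (rStrip ^ (-k : ℝ))
  refine tsum_of_norm_bounded p_sum.hasSum fun v => ?_
  refine (norm_wEis_summand_le hw v z).trans ?_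
  simp_rw [eisSummand, norm_zpow]
  exact_mod_cast summand_bound_of_mem_verticalStrip (lt_trans two_pos hk').le v one_pos hz

/-- Every `z` with `1 ≤ im z` is a `T`-translate of a point of the standard strip. -/
theorem exists_T_zpow_smul_mem_verticalStrip (z : ℍ) :
    ∃ n : ℤ, ModularGroup.T ^ n • z ∈ verticalStrip 1 z.im := by
  obtain ⟨n, hn⟩ := ModularGroup_T_zpow_mem_verticalStrip z (N := 1) one_pos
  refine ⟨n, ?_⟩
  simpa using hn

theorem wEis_eq_wEis_strip (n : ℤ) (z : ℍ) :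
    wEis k w z = wEis k (wTransl w (ModularGroup.T ^ (-n))) (ModularGroup.T ^ n • z) := by
  rw [← wEis_T_zpow_smul, _root_.zpow_neg, inv_smul_smul]

/-- Weighted Eisenstein series are bounded at `i∞`. -/
theorem isBoundedAtImInfty_wEis (hk : 3 ≤ k) (hw : ∀ v, ‖w v‖ ≤ 1) :
    IsBoundedAtImInfty (wEis k w) := by
  rw [isBoundedAtImInfty_iff]
  refine ⟨∑' v : Fin 2 → ℤ, rStrip ^ (-k) * ‖v‖ ^ (-k), 1, fun z hz => ?_⟩
  obtain ⟨n, hn⟩ := exists_T_zpow_smul_mem_verticalStrip z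
  rw [wEis_eq_wEis_strip n z]
  exact norm_wEis_le_of_mem_verticalStrip hk (norm_wTransl_le hw _)
    (verticalStrip_anti_right 1 hz hn)

/-- All slash translates of weighted Eisenstein series are bounded at `i∞`. -/
theorem isBoundedAtImInfty_wEis_slash (hk : 3 ≤ k) (hw : ∀ v, ‖w v‖ ≤ 1) (A : SL(2, ℤ)) :
    IsBoundedAtImInfty (wEis k w ∣[k] A) := by
  rw [wEis_slash]
  exact isBoundedAtImInfty_wEis hk (norm_wTransl_le hw A)

/-! ### The limit at `i∞` -/

/-- The constant term of a weighted Eisenstein series at `i∞`. -/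
def wEisConst (k : ℤ) (w : (Fin 2 → ℤ) → ℂ) : ℂ :=
  ∑' v : Fin 2 → ℤ, if v 0 = 0 then w v * (v 1 : ℂ) ^ (-k) else 0

theorem wEisConst_wTransl_T_zpow (n : ℤ) :
    wEisConst k (wTransl w (ModularGroup.T ^ n)) = wEisConst k w := by
  unfold wEisConst
  refine tsum_congr fun v => ?_
  split_ifs with hv
  · rw [wTransl_T_zpow_of_zero w n hv]
  · rfl

theorem eisSummand_of_zero (k : ℤ) {v : Fin 2 → ℤ} (hv : v 0 = 0) (z : ℍ) :
    eisSummand k v z = (v 1 : ℂ) ^ (-k) := by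
  simp [eisSummand, hv]

theorem norm_wEis_sub_const_le (hk : 4 ≤ k) (hw : ∀ v, ‖w v‖ ≤ 1) {z : ℍ}
    (hz : z ∈ verticalStrip 1 1) :
    ‖wEis k w z - wEisConst k w‖ ≤
      (∑' v : Fin 2 → ℤ, rStrip ^ (-(k - 1) : ℝ) * ‖v‖ ^ (-(k - 1) : ℝ)) / z.im := by
  have hk3 : 3 ≤ k := by omega
  have hk' : (2 : ℝ) < (k : ℝ) - 1 := by
    have : (4 : ℝ) ≤ k := by exact_mod_cast hk
    linarith
  have hy : 0 < z.im := z.im_pos
  have p_sum : Summable fun x : Fin 2 → ℤ ↦ rStrip ^ (-(k - 1) : ℝ) * ‖x‖ ^ (-(k - 1) : ℝ) :=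
    (summable_one_div_norm_rpow hk').mul_left _
  set g : (Fin 2 → ℤ) → ℂ := fun v => if v 0 = 0 then w v * (v 1 : ℂ) ^ (-k) else 0 with hg
  have hgf : ∀ v, g v = if v 0 = 0 then w v * eisSummand k v z else 0 := fun v => by
    simp only [hg]
    split_ifs with hv
    · rw [eisSummand_of_zero k hv]
    · rfl
  have hgsum : Summable g := by
    refine Summable.of_norm_bounded (summable_norm_wEis hk3 hw z) fun v => ?_
    rw [hgf]
    split_ifs
    · exact le_rfl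
    · rw [norm_zero]; exact norm_nonneg _
  have hsub : wEis k w z - wEisConst k w = ∑' v, (w v * eisSummand k v z - g v) := by
    rw [wEis, wEisConst, ← (summable_wEis hk3 hw z).tsum_sub hgsum]
  rw [hsub]
  refine tsum_of_norm_bounded (p_sum.hasSum.div_const z.im) fun v => ?_
  rw [hgf]
  split_ifs with hv
  · rw [sub_self, norm_zero]
    exact div_nonneg (mul_nonneg (Real.rpow_nonneg rStrip_pos.le _)
      (Real.rpow_nonneg (norm_nonneg _) _)) hy.le
  · rw [sub_zero]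
    refine (norm_wEis_summand_le hw v z).trans ?_
    have ha : z.im ≤ ‖(v 0 : ℂ) * (z : ℂ) + v 1‖ := by
      have h1 : |((v 0 : ℂ) * (z : ℂ) + v 1).im| ≤ ‖(v 0 : ℂ) * (z : ℂ) + v 1‖ :=
        Complex.abs_im_le_norm _
      have h2 : ((v 0 : ℂ) * (z : ℂ) + v 1).im = v 0 * z.im := by simp
      rw [h2, abs_mul, abs_of_pos hy] at h1
      have h3 : (1 : ℝ) ≤ |(v 0 : ℝ)| := by
        have : (1 : ℤ) ≤ |v 0| := Int.one_le_abs hv
        exact_mod_cast this
      calc z.im = 1 * z.im := (one_mul _).symm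
        _ ≤ |(v 0 : ℝ)| * z.im := by gcongr
        _ ≤ _ := h1
    have ha0 : 0 < ‖(v 0 : ℂ) * (z : ℂ) + v 1‖ := lt_of_lt_of_le hy ha
    have hb := summand_bound_of_mem_verticalStrip (k := (k : ℝ) - 1) (by linarith) v one_pos hz
    have hsplit : ‖(v 0 : ℂ) * (z : ℂ) + v 1‖ ^ (-k) =
        ‖(v 0 : ℂ) * (z : ℂ) + v 1‖ ^ (-(k - 1) : ℝ) * ‖(v 0 : ℂ) * (z : ℂ) + v 1‖⁻¹ := by
      rw [← Real.rpow_neg_one, ← Real.rpow_add ha0, ← Real.rpow_intCast]
      congr 1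
      push_cast
      ring
    simp_rw [eisSummand, norm_zpow]
    rw [hsplit, div_eq_mul_inv]
    refine mul_le_mul hb ?_ (inv_nonneg.mpr ha0.le) ?_
    · exact inv_anti₀ hy ha
    · exact mul_nonneg (Real.rpow_nonneg rStrip_pos.le _) (Real.rpow_nonneg (norm_nonneg _) _)

/-- The limit of a weighted Eisenstein series at `i∞` (weight `k ≥ 4`). -/
theorem tendsto_wEis_atImInfty (hk : 4 ≤ k) (hw : ∀ v, ‖w v‖ ≤ 1) :
    Tendsto (wEis k w) atImInfty (𝓝 (wEisConst k w)) := by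
  set C : ℝ := ∑' v : Fin 2 → ℤ, rStrip ^ (-(k - 1) : ℝ) * ‖v‖ ^ (-(k - 1) : ℝ) with hC
  have hbound : ∀ z : ℍ, 1 ≤ z.im → ‖wEis k w z - wEisConst k w‖ ≤ C / z.im := by
    intro z hz
    obtain ⟨n, hn⟩ := exists_T_zpow_smul_mem_verticalStrip z
    have h := norm_wEis_sub_const_le (w := wTransl w (ModularGroup.T ^ (-n))) hk
      (norm_wTransl_le hw _) (verticalStrip_anti_right 1 hz hn)
    rw [← wEis_eq_wEis_strip n z, wEisConst_wTransl_T_zpow, ModularGroup.im_T_zpow_smul] at h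
    exact h
  rw [tendsto_iff_norm_sub_tendsto_zero]
  have hlim : Tendsto (fun z : ℍ => C / z.im) atImInfty (𝓝 0) :=
    tendsto_const_nhds.div_atTop tendsto_comap
  refine squeeze_zero' (Eventually.of_forall fun _ => norm_nonneg _) ?_ hlim
  rw [Filter.Eventually, atImInfty_mem]
  exact ⟨1, fun z hz => hbound z hz⟩

end Fermat.Agent.S29.H24
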