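/-
S29 / S42, Program A, leaf A1 (helper24): Eisenstein series with character.

Let `Γ ≤ SL(2, ℤ)` contain `-1` and let `χ : Γ →* ℂ` be a unitary character which is trivial on
the upper triangular elements of `Γ` (i.e. on `± T ^ n`).  For even `k ≥ 4` the series
  `charEis χ k z = (1/2) ∑ χ(γ)⁻¹ (c z + d) ^ (-k)`     (sum over the bottom rows `(c, d)` of `Γ`)
is holomorphic on the upper half plane, satisfies `charEis χ k ∣[k] γ = χ γ • charEis χ k` for
`γ ∈ Γ`, tends to `1` at `i∞`, and all its `SL(2, ℤ)`-slash translates are bounded at `i∞`.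
-/
import Mathlib
import Fermat.Prelude.Def_ModularCurve_PeriodMap
import Fermat.Agent.S29.H24.TwistedEis

set_option autoImplicit false

open UpperHalfPlane EisensteinSeries ModularForm Matrix Filter Topology
open scoped MatrixGroups UpperHalfPlane Manifold

noncomputable section

namespace Fermat.Agent.S29.H24

/-- The bottom row of an element of `SL(2, ℤ)`. -/
def botRow (γ : SL(2, ℤ)) : Fin 2 → ℤ := (γ : Matrix (Fin 2) (Fin 2) ℤ) 1

theorem botRow_mul (g γ : SL(2, ℤ)) :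
    botRow (g * γ) = botRow g ᵥ* (γ : Matrix (Fin 2) (Fin 2) ℤ) := by
  rw [botRow, Matrix.SpecialLinearGroup.coe_mul, Matrix.mul_apply_eq_vecMul]
  rfl

theorem botRow_one : botRow 1 = ![0, 1] := by
  ext i
  fin_cases i <;> simp [botRow]

theorem botRow_neg_one : botRow (-1) = ![0, -1] := by
  ext i
  fin_cases i <;> simp [botRow]

theorem botRow_apply_zero (γ : SL(2, ℤ)) : botRow γ 0 = γ 1 0 := rfl

theorem botRow_apply_one (γ : SL(2, ℤ)) : botRow γ 1 = γ 1 1 := rfl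

/-- An element of `SL(2, ℤ)` whose bottom row starts with `0` has bottom row `(0, ±1)`. -/
theorem botRow_eq_of_zero {γ : SL(2, ℤ)} (h : γ 1 0 = 0) :
    botRow γ = ![0, 1] ∨ botRow γ = ![0, -1] := by
  have hdet := γ.det_coe
  rw [Matrix.det_fin_two, h, mul_zero, sub_zero] at hdet
  rcases Int.eq_one_or_neg_one_of_mul_eq_one' hdet with ⟨-, h1⟩ | ⟨-, h1⟩
  · left
    ext i
    fin_cases i
    · exact h
    · exact h1
  · right
    ext i
    fin_cases i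
    · exact h
    · exact h1

variable {Γ : Subgroup SL(2, ℤ)}

open Classical in
/-- The weight attached to a character of `Γ`: `χ(γ)⁻¹` on the bottom row of `γ ∈ Γ`. -/
def charWeight (χ : Γ →* ℂ) (v : Fin 2 → ℤ) : ℂ :=
  if h : ∃ γ : Γ, botRow (γ : SL(2, ℤ)) = v then (χ h.choose)⁻¹ else 0

theorem charWeight_of_not (χ : Γ →* ℂ) {v : Fin 2 → ℤ}
    (h : ¬ ∃ γ : Γ, botRow (γ : SL(2, ℤ)) = v) : charWeight χ v = 0 := by
  rw [charWeight, dif_neg h]

theorem char_ne_zero (χ : Γ →* ℂ) (γ : Γ) : χ γ ≠ 0 := by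
  intro h
  have h1 : χ (γ * γ⁻¹) = 1 := by rw [mul_inv_cancel, map_one]
  rw [map_mul, h, zero_mul] at h1
  exact zero_ne_one h1

/-- Two elements of `Γ` with the same bottom row have the same character value. -/
theorem char_eq_of_botRow_eq (χ : Γ →* ℂ)
    (hT : ∀ γ : Γ, (γ : SL(2, ℤ)) 1 0 = 0 → χ γ = 1) {γ γ' : Γ}
    (h : botRow (γ' : SL(2, ℤ)) = botRow (γ : SL(2, ℤ))) : χ γ' = χ γ := by
  have h1 : botRow ((γ' * γ⁻¹ : Γ) : SL(2, ℤ)) = ![0, 1] := by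
    rw [Subgroup.coe_mul, botRow_mul, h, ← botRow_mul, ← Subgroup.coe_mul, mul_inv_cancel,
      Subgroup.coe_one, botRow_one]
  have h2 : ((γ' * γ⁻¹ : Γ) : SL(2, ℤ)) 1 0 = 0 := by
    rw [← botRow_apply_zero, h1]
    rfl
  have h3 := hT _ h2
  rw [map_mul, map_inv, mul_inv_eq_one₀ (char_ne_zero χ γ)] at h3
  exact h3

theorem charWeight_botRow (χ : Γ →* ℂ)
    (hT : ∀ γ : Γ, (γ : SL(2, ℤ)) 1 0 = 0 → χ γ = 1) (γ : Γ) :
    charWeight χ (botRow (γ : SL(2, ℤ))) = (χ γ)⁻¹ := by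
  have h : ∃ γ' : Γ, botRow (γ' : SL(2, ℤ)) = botRow (γ : SL(2, ℤ)) := ⟨γ, rfl⟩
  rw [charWeight, dif_pos h, char_eq_of_botRow_eq χ hT h.choose_spec]

theorem norm_charWeight_le (χ : Γ →* ℂ) (hχ : ∀ γ, ‖χ γ‖ = 1) (v : Fin 2 → ℤ) :
    ‖charWeight χ v‖ ≤ 1 := by
  unfold charWeight
  split_ifs with h
  · rw [norm_inv, hχ, inv_one]
  · rw [norm_zero]
    exact zero_le_one

/-- Equivariance of the weight. -/
theorem wTransl_charWeight (χ : Γ →* ℂ)
    (hT : ∀ γ : Γ, (γ : SL(2, ℤ)) 1 0 = 0 → χ γ = 1) (γ : Γ) (v : Fin 2 → ℤ) :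
    wTransl (charWeight χ) (γ : SL(2, ℤ)) v = χ γ * charWeight χ v := by
  by_cases h : ∃ g : Γ, botRow (g : SL(2, ℤ)) = v
  · obtain ⟨g, rfl⟩ := h
    rw [wTransl, ← botRow_mul, ← Subgroup.coe_inv, ← Subgroup.coe_mul, charWeight_botRow χ hT,
      charWeight_botRow χ hT, map_mul, map_inv, mul_inv, inv_inv, mul_comm]
  · rw [charWeight_of_not χ h, mul_zero, wTransl]
    refine charWeight_of_not χ ?_
    rintro ⟨g, hg⟩
    refine h ⟨g * γ, ?_⟩
    rw [Subgroup.coe_mul, botRow_mul, hg]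
    simp_rw [vecMul_vecMul, ← Matrix.SpecialLinearGroup.coe_mul, inv_mul_cancel,
      Matrix.SpecialLinearGroup.coe_one, vecMul_one]

/-- The constant term of the Eisenstein series with character is `2`. -/
theorem wEisConst_charWeight (hneg : -1 ∈ Γ) (χ : Γ →* ℂ)
    (hT : ∀ γ : Γ, (γ : SL(2, ℤ)) 1 0 = 0 → χ γ = 1) {k : ℤ} (hk : Even k) :
    wEisConst k (charWeight χ) = 2 := by
  have hw1 : charWeight χ ![0, 1] = 1 := by
    have := charWeight_botRow χ hT 1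
    rwa [Subgroup.coe_one, botRow_one, map_one, inv_one] at this
  have hwn : charWeight χ ![0, -1] = 1 := by
    have h := charWeight_botRow χ hT ⟨-1, hneg⟩
    have h2 : χ ⟨-1, hneg⟩ = 1 := hT _ (by simp)
    rwa [botRow_neg_one, h2, inv_one] at h
  have hne : (![0, 1] : Fin 2 → ℤ) ≠ ![0, -1] := by
    intro h
    have := congrFun h 1
    simp at this
  unfold wEisConst
  rw [tsum_eq_sum (s := {![0, 1], ![0, -1]})]
  · rw [Finset.sum_pair hne]
    simp only [Matrix.cons_val_zero, Matrix.cons_val_one, if_true, hw1, hwn]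
    have h1 : ((-1 : ℤ) : ℂ) ^ (-k) = 1 := by
      have : Even (-k) := hk.neg
      push_cast
      exact this.neg_one_zpow
    simp only [Int.cast_one, _root_.one_zpow, mul_one, h1]
    norm_num
  · intro v hv
    split_ifs with h0
    · rw [charWeight_of_not χ, zero_mul]
      rintro ⟨g, hg⟩
      apply hv
      have h00 : (g : SL(2, ℤ)) 1 0 = 0 := by rw [← botRow_apply_zero, hg, h0]
      rcases botRow_eq_of_zero h00 with h1 | h1
      · rw [← hg, h1]; simp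
      · rw [← hg, h1]; simp
    · rfl

/-- The (normalised) Eisenstein series with character. -/
def charEis (χ : Γ →* ℂ) (k : ℤ) : ℍ → ℂ := (2⁻¹ : ℂ) • wEis k (charWeight χ)

theorem mdiff_charEis (χ : Γ →* ℂ) (hχ : ∀ γ, ‖χ γ‖ = 1) {k : ℤ} (hk : 3 ≤ k) :
    MDiff (charEis χ k) :=
  (mdiff_wEis hk (norm_charWeight_le χ hχ)).const_smul _

theorem charEis_slash (χ : Γ →* ℂ) (hT : ∀ γ : Γ, (γ : SL(2, ℤ)) 1 0 = 0 → χ γ = 1) (k : ℤ)
    (γ : Γ) : charEis χ k ∣[k] (γ : SL(2, ℤ)) = χ γ • charEis χ k := by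
  rw [charEis, SL_smul_slash, wEis_slash_of_equivariant _ (χ γ) (wTransl_charWeight χ hT γ),
    smul_comm]

/-- The transformation law in explicit form. -/
theorem charEis_smul (χ : Γ →* ℂ) (hT : ∀ γ : Γ, (γ : SL(2, ℤ)) 1 0 = 0 → χ γ = 1) (k : ℤ)
    (γ : Γ) (z : ℍ) :
    charEis χ k ((γ : SL(2, ℤ)) • z) = χ γ * denom (γ : SL(2, ℤ)) z ^ k * charEis χ k z := by
  have h := congrFun (charEis_slash χ hT k γ) z
  rw [SL_slash_apply, Pi.smul_apply, smul_eq_mul, _root_.zpow_neg,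
    mul_inv_eq_iff_eq_mul₀ (zpow_ne_zero _ (denom_ne_zero _ z))] at h
  rw [h]
  ring

theorem tendsto_charEis (hneg : -1 ∈ Γ) (χ : Γ →* ℂ) (hχ : ∀ γ, ‖χ γ‖ = 1)
    (hT : ∀ γ : Γ, (γ : SL(2, ℤ)) 1 0 = 0 → χ γ = 1) {k : ℤ} (hk : 4 ≤ k) (hk2 : Even k) :
    Tendsto (charEis χ k) atImInfty (𝓝 1) := by
  have h := (tendsto_wEis_atImInfty hk (norm_charWeight_le χ hχ)).const_smul (2⁻¹ : ℂ)
  rw [wEisConst_charWeight hneg χ hT hk2] at h
  have h2 : (2⁻¹ : ℂ) • (2 : ℂ) = 1 := by norm_num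
  rw [h2] at h
  exact h

theorem isBoundedAtImInfty_charEis_slash (χ : Γ →* ℂ) (hχ : ∀ γ, ‖χ γ‖ = 1) {k : ℤ} (hk : 3 ≤ k)
    (A : SL(2, ℤ)) : IsBoundedAtImInfty (charEis χ k ∣[k] A) := by
  rw [charEis, SL_smul_slash]
  have h := isBoundedAtImInfty_wEis_slash hk (norm_charWeight_le χ hχ) A
  exact Filter.BoundedAtFilter.smul (2⁻¹ : ℂ) h

/-- **Eisenstein series with character** (leaf A1): existence statement. -/
theorem exists_charEis (hneg : -1 ∈ Γ) (χ : Γ →* ℂ) (hχ : ∀ γ, ‖χ γ‖ = 1)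
    (hT : ∀ γ : Γ, (γ : SL(2, ℤ)) 1 0 = 0 → χ γ = 1) {k : ℤ} (hk : 4 ≤ k) (hk2 : Even k) :
    ∃ E : ℍ → ℂ, MDiff E ∧
      (∀ γ : Γ, E ∣[k] (γ : SL(2, ℤ)) = χ γ • E) ∧
      (∀ (γ : Γ) (z : ℍ), E ((γ : SL(2, ℤ)) • z) = χ γ * denom (γ : SL(2, ℤ)) z ^ k * E z) ∧
      Tendsto E atImInfty (𝓝 1) ∧
      ∀ A : SL(2, ℤ), IsBoundedAtImInfty (E ∣[k] A) :=
  ⟨charEis χ k, mdiff_charEis χ hχ (by omega), charEis_slash χ hT k, charEis_smul χ hT k,
    tendsto_charEis hneg χ hχ hT hk hk2, isBoundedAtImInfty_charEis_slash χ hχ (by omega)⟩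

/-! ### Characters attached to parabolic homomorphisms -/

/-- The character `γ ↦ e (ψ γ)` of `Γ` attached to a homomorphism `ψ : Additive Γ →+ A` and an
additive character `e` of `A`. -/
def charOfHom {A : Type*} [AddCommGroup A] (e : AddChar A ℂ) (ψ : Additive Γ →+ A) : Γ →* ℂ where
  toFun γ := e (ψ (Additive.ofMul γ))
  map_one' := by
    have h : ψ (Additive.ofMul (1 : Γ)) = 0 := map_zero ψ
    rw [h, AddChar.map_zero_eq_one]
  map_mul' γ δ := by
    have h : ψ (Additive.ofMul (γ * δ)) = ψ (Additive.ofMul γ) + ψ (Additive.ofMul δ) :=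
      map_add ψ (Additive.ofMul γ) (Additive.ofMul δ)
    rw [h, AddChar.map_add_eq_mul]

theorem charOfHom_apply {A : Type*} [AddCommGroup A] (e : AddChar A ℂ) (ψ : Additive Γ →+ A)
    (γ : Γ) : charOfHom e ψ γ = e (ψ (Additive.ofMul γ)) := rfl

theorem norm_charOfHom {A : Type*} [AddCommGroup A] [Finite A] (e : AddChar A ℂ)
    (ψ : Additive Γ →+ A) (γ : Γ) : ‖charOfHom e ψ γ‖ = 1 := by
  rw [charOfHom_apply, AddChar.norm_apply]

/-- An element of `SL(2, ℤ)` with vanishing lower left entry has trace `±2`. -/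
theorem trace_sq_of_zero {γ : SL(2, ℤ)} (h : γ 1 0 = 0) :
    (γ : Matrix (Fin 2) (Fin 2) ℤ).trace ^ 2 = 4 := by
  have hdet := γ.det_coe
  rw [Matrix.det_fin_two, h, mul_zero, sub_zero] at hdet
  rw [Matrix.trace_fin_two]
  rcases Int.eq_one_or_neg_one_of_mul_eq_one' hdet with ⟨h0, h1⟩ | ⟨h0, h1⟩
  · rw [h0, h1]; norm_num
  · rw [h0, h1]; norm_num

theorem charOfHom_eq_one_of_parabolic {A : Type*} [AddCommGroup A] (e : AddChar A ℂ)
    (ψ : Additive Γ →+ A) (hψ : ModularCurve.Period.IsParabolicHom Γ ψ) (γ : Γ)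
    (h : (γ : SL(2, ℤ)) 1 0 = 0) : charOfHom e ψ γ = 1 := by
  rw [charOfHom_apply, hψ γ (trace_sq_of_zero h), AddChar.map_zero_eq_one]

/-- **Eisenstein series attached to a parabolic homomorphism** (leaf A1, consumer form):
for a parabolic `ψ : Γ → A` (`A` finite) and an additive character `e` of `A` there is a
holomorphic `E` on the upper half plane with `E (γ z) = e (ψ γ) (c z + d) ^ k E z` for `γ ∈ Γ`,
`E → 1` at `i∞`, and all `SL(2, ℤ)`-slash translates bounded at `i∞`. -/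
theorem exists_charEis_of_parabolic {A : Type*} [AddCommGroup A] [Finite A] (e : AddChar A ℂ)
    (hneg : -1 ∈ Γ) (ψ : Additive Γ →+ A) (hψ : ModularCurve.Period.IsParabolicHom Γ ψ)
    {k : ℤ} (hk : 4 ≤ k) (hk2 : Even k) :
    ∃ E : ℍ → ℂ, MDiff E ∧
      (∀ (γ : Γ) (z : ℍ), E ((γ : SL(2, ℤ)) • z) =
        e (ψ (Additive.ofMul γ)) * denom (γ : SL(2, ℤ)) z ^ k * E z) ∧
      Tendsto E atImInfty (𝓝 1) ∧
      ∀ B : SL(2, ℤ), IsBoundedAtImInfty (E ∣[k] B) := by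
  obtain ⟨E, h1, -, h3, h4, h5⟩ := exists_charEis hneg (charOfHom e ψ) (norm_charOfHom e ψ)
    (charOfHom_eq_one_of_parabolic e ψ hψ) hk hk2
  exact ⟨E, h1, h3, h4, h5⟩

theorem neg_one_mem_Gamma0 (N : ℕ) : (-1 : SL(2, ℤ)) ∈ CongruenceSubgroup.Gamma0 N := by
  rw [CongruenceSubgroup.Gamma0_mem]
  simp

end Fermat.Agent.S29.H24
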